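import Fermat.Agent.ES.B.Output

/-!
# SS project (semistable primes `q ∥ N`: statements S34, S35).  Shared definitions.

Level `N = M * q`, `q ∤ M` prime, `A` a valuation ring of `ℚ̄` over `q`, `m` prime to `q`.

* `RedTo A x r`   : the Laurent series `x ∈ ℚ̄((t))` is integral for the Gauss valuation `v_∞`
                    attached to `A((t))`, with reduction `r ∈ k_A((t))`.
* `RedConst A u`  : `u ∈ F_N` is a constant times a function `≡ 1 mod v_∞` (quotient form, with
                    numerator and denominator in `F_N ∩ A((t))`, same shape as `ES.Crux`).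
* `IsAL M q w`    : `w` is the Atkin-Lehner involution `w_q` of `F_{Mq}` (`w α = β`, `w β = α`).
* `Crux2 M q m`   : **the arithmetic input** (toric part).  If `u ∈ Dm (M*q) m` is constant modulo
                    both Gauss valuations `v_∞` and `v_0 = v_∞ ∘ w`, then every `τ` in the
                    decomposition group of `A` which is trivial on `𝔽_{q²} ⊆ k_A` acts on the class
                    of `u` through the cyclotomic character.
-/

set_option autoImplicit false

open AlgebraicCurve ModularCurve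

namespace Fermat.Agent.SS

open Fermat.Agent.ES

noncomputable section

/-- `x` is integral for the Gauss valuation of `A((t))`, with reduction `r`. -/
def RedTo (A : ValuationSubring Qb) (x : LaurentSeries Qb) (r : LaurentSeries (kA A)) : Prop :=
  ∃ y₁ y₂ : LaurentSeries A, coeffMap (resA A) y₂ ≠ 0 ∧
    x * coeffMap A.subtype y₂ = coeffMap A.subtype y₁ ∧
    coeffMap (resA A) y₁ = r * coeffMap (resA A) y₂

/-- `u ∈ F_N` is a nonzero constant times a quotient of two `A`-integral elements of `F_N` with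
the same nonzero reduction. -/
def RedConst {N : ℕ} (A : ValuationSubring Qb) (u : FF N) : Prop :=
  ∃ (c : Qb) (y₁ y₂ : LaurentSeries A), c ≠ 0 ∧
    coeffMap A.subtype y₁ ∈ modularFunctionFieldBar N ∧
    coeffMap A.subtype y₂ ∈ modularFunctionFieldBar N ∧
    coeffMap (resA A) y₁ = coeffMap (resA A) y₂ ∧ coeffMap (resA A) y₂ ≠ 0 ∧
    algebraMap Qb (LaurentSeries Qb) c * (u : LaurentSeries Qb) * coeffMap A.subtype y₂
      = coeffMap A.subtype y₁

/-- `w` is the Atkin-Lehner involution `w_q` of the function field of `X₀(M q)`. -/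
structure IsAL (M q : ℕ) [NeZero M] [NeZero q] (w : FF (M * q) →ₐ[Qb] FF (M * q)) : Prop where
  alpha : ∀ f : FF M, w (heckeAlphaBar Qb M q f) = heckeBetaBar Qb M q f
  beta : ∀ f : FF M, w (heckeBetaBar Qb M q f) = heckeAlphaBar Qb M q f

theorem exists_isAL (M q : ℕ) [NeZero M] [NeZero q] (hq : q.Prime) (hqM : ¬ q ∣ M) :
    ∃ w : FF (M * q) →ₐ[Qb] FF (M * q), IsAL M q w := by
  obtain ⟨w, h1, h2⟩ := exists_atkinLehner M q hq hqM
  exact ⟨w, h1, h2⟩

/-- **CRUX 2** (the toric part of `J₀(Mq)[m]` at `q`). -/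
def Crux2 (M q m : ℕ) [NeZero M] [NeZero q] : Prop :=
  ∀ (A : ValuationSubring Qb), A.LiesOverPrime q →
    ∀ (w : FF (M * q) →ₐ[Qb] FF (M * q)), IsAL M q w →
    ∀ (τ : A.decompositionSubgroup ℚ),
      (∀ x : kA A, x ^ (q ^ 2) = x → τ • x = x) →
    ∀ (e : ℕ), (∀ ζ : Qb, ζ ^ m = 1 → (τ : GQ) ζ = ζ ^ e) →
    ∀ u : Dm (M * q) m,
      RedConst A ((u : (FF (M * q))ˣ) : FF (M * q)) →
      RedConst A (w ((u : (FF (M * q))ˣ) : FF (M * q))) →
      galKum (M * q) m (τ : GQ) (Kum.mk u) = e • Kum.mk u

end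

end Fermat.Agent.SS
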