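import Mathlib

/-!
# SS : the sandwich lemma (nodal structure of the special fibre, for free)

`R` a commutative ring, `Φ : R →+* R` (think: `R` = the normal affine ring of the reduction of
`X₀(M)` in one chart, `Φ f = f(x^q)` the `k`-linear Frobenius).  The reduction of the integral closure
at level `M q` is a subring `B` of `R × R` containing all `(a, Φ a)` and all `(Φ b, b)`.

* `exists_ideal` (any `R`): `B = {(a,b) | Φ a - b ∈ J}` for an ideal `J ⊇ cond Φ = (Φ² a - a)`.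
* `isRadical_of_cond_le` (`R` Dedekind, `Φ a` always a `q`-th power, `Φ² ≠ id`): every ideal
  `J ⊇ cond Φ` is radical and nonzero.
* `exists_finset`: `B = {(a,b) | Φ a ≡ b mod p for all p ∈ Sg}`, `Sg` a finite set of maximal ideals, and
  `Φ² a ≡ a mod p` for `p ∈ Sg`.
* `ev J : R × R →+* (R ⧸ J) × (R ⧸ J)`, `(a,b) ↦ (Φ a, b)`: surjective, `B = ev⁻¹ (diagonal)`, `ker ev ⊆ B`.
-/

set_option autoImplicit false

namespace Fermat.Agent.SS.Sandwich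

open IsDedekindDomain

variable {R : Type*} [CommRing R] (Φ : R →+* R)

/-- the ideal generated by all `Φ (Φ a) - a`. -/
def cond : Ideal R := Ideal.span (Set.range fun a : R => Φ (Φ a) - a)

theorem sub_mem_cond (a : R) : Φ (Φ a) - a ∈ cond Φ := Ideal.subset_span ⟨a, rfl⟩

/-- the glueing ideal `{c | (0,c) ∈ B}` of an additive subgroup stable under the `(Φ r, r)`. -/
def glue (B : AddSubgroup (R × R))
    (hmul : ∀ (r : R) (x : R × R), x ∈ B → (Φ r * x.1, r * x.2) ∈ B) : Ideal R where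
  carrier := {c | ((0 : R), c) ∈ B}
  add_mem' := fun {a b} ha hb => by
    have := B.add_mem ha hb
    simpa using this
  zero_mem' := B.zero_mem
  smul_mem' := fun r c hc => by
    have := hmul r _ hc
    simpa using this

theorem mem_glue {B : AddSubgroup (R × R)}
    {hmul : ∀ (r : R) (x : R × R), x ∈ B → (Φ r * x.1, r * x.2) ∈ B} {c : R} :
    c ∈ glue Φ B hmul ↔ ((0 : R), c) ∈ B := Iff.rfl

/-- module version of the sandwich lemma. -/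
theorem mem_iff_of_module (B : AddSubgroup (R × R)) (hB : ∀ a, (a, Φ a) ∈ B)
    (hmul : ∀ (r : R) (x : R × R), x ∈ B → (Φ r * x.1, r * x.2) ∈ B) (x : R × R) :
    x ∈ B ↔ Φ x.1 - x.2 ∈ glue Φ B hmul := by
  rw [mem_glue]
  have e : ((0 : R), Φ x.1 - x.2) = (x.1, Φ x.1) - x := by
    ext <;> simp
  constructor
  · intro hx
    rw [e]
    exact B.sub_mem (hB _) hx
  · intro h
    have e' : x = (x.1, Φ x.1) - ((0 : R), Φ x.1 - x.2) := by
      ext <;> simp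
    rw [e']
    exact B.sub_mem (hB _) h

theorem cond_le_glue (B : AddSubgroup (R × R)) (hB : ∀ a, (a, Φ a) ∈ B)
    (hmul : ∀ (r : R) (x : R × R), x ∈ B → (Φ r * x.1, r * x.2) ∈ B) :
    cond Φ ≤ glue Φ B hmul := by
  rw [cond, Ideal.span_le]
  rintro _ ⟨a, rfl⟩
  show ((0 : R), Φ (Φ a) - a) ∈ B
  have h1 : (Φ a, Φ (Φ a)) ∈ B := hB (Φ a)
  have h2 : (Φ a, a) ∈ B := by
    have := hmul a _ (hB 1)
    simpa using this
  have e : ((0 : R), Φ (Φ a) - a) = (Φ a, Φ (Φ a)) - (Φ a, a) := by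
    ext <;> simp
  rw [e]
  exact B.sub_mem h1 h2

/-- **Sandwich lemma, general form.** -/
theorem exists_ideal (B : Subring (R × R)) (h1 : ∀ a, (a, Φ a) ∈ B) (h2 : ∀ b, (Φ b, b) ∈ B) :
    ∃ J : Ideal R, cond Φ ≤ J ∧ ∀ x : R × R, x ∈ B ↔ Φ x.1 - x.2 ∈ J := by
  have hmul : ∀ (r : R) (x : R × R), x ∈ B.toAddSubgroup → (Φ r * x.1, r * x.2) ∈ B.toAddSubgroup :=
    fun r x hx => B.mul_mem (h2 r) hx
  exact ⟨glue Φ B.toAddSubgroup hmul, cond_le_glue Φ _ h1 hmul,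
    fun x => mem_iff_of_module Φ B.toAddSubgroup h1 hmul x⟩

/-- conversely `{(a,b) | Φ a - b ∈ J}` is a subring containing the `(a, Φ a)`, `(Φ b, b)`. -/
def ringOf (J : Ideal R) : Subring (R × R) where
  carrier := {x | Φ x.1 - x.2 ∈ J}
  mul_mem' := by
    rintro ⟨a, b⟩ ⟨a', b'⟩ h h'
    have h : Φ a - b ∈ J := h
    have h' : Φ a' - b' ∈ J := h'
    show Φ (a * a') - b * b' ∈ J
    have e : Φ (a * a') - b * b' = Φ a * (Φ a' - b') + b' * (Φ a - b) := by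
      rw [map_mul]; ring
    rw [e]
    exact J.add_mem (J.mul_mem_left _ h') (J.mul_mem_left _ h)
  one_mem' := by
    show Φ 1 - 1 ∈ J
    simp
  add_mem' := by
    rintro ⟨a, b⟩ ⟨a', b'⟩ h h'
    have h : Φ a - b ∈ J := h
    have h' : Φ a' - b' ∈ J := h'
    show Φ (a + a') - (b + b') ∈ J
    have e : Φ (a + a') - (b + b') = (Φ a - b) + (Φ a' - b') := by
      rw [map_add]; ring
    rw [e]
    exact J.add_mem h h'
  zero_mem' := by
    show Φ 0 - 0 ∈ J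
    simp
  neg_mem' := by
    rintro ⟨a, b⟩ h
    have h : Φ a - b ∈ J := h
    show Φ (-a) - (-b) ∈ J
    have e : Φ (-a) - (-b) = -(Φ a - b) := by
      rw [map_neg]; ring
    rw [e]
    exact J.neg_mem h

theorem mem_ringOf {J : Ideal R} {x : R × R} : x ∈ ringOf Φ J ↔ Φ x.1 - x.2 ∈ J := Iff.rfl

/-! ### the evaluation map -/

/-- `(a,b) ↦ (Φ a mod J, b mod J)`. -/
def ev (J : Ideal R) : R × R →+* (R ⧸ J) × (R ⧸ J) :=
  RingHom.prodMap ((Ideal.Quotient.mk J).comp Φ) (Ideal.Quotient.mk J)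

@[simp] theorem ev_apply (J : Ideal R) (x : R × R) :
    ev Φ J x = (Ideal.Quotient.mk J (Φ x.1), Ideal.Quotient.mk J x.2) := rfl

theorem ev_fst_eq_snd_iff (J : Ideal R) (x : R × R) :
    (ev Φ J x).1 = (ev Φ J x).2 ↔ Φ x.1 - x.2 ∈ J := by
  rw [ev_apply, Ideal.Quotient.eq]

theorem ev_surjective {J : Ideal R} (hJ : cond Φ ≤ J) : Function.Surjective (ev Φ J) := by
  rintro ⟨a, b⟩
  obtain ⟨a, rfl⟩ := Ideal.Quotient.mk_surjective a
  obtain ⟨b, rfl⟩ := Ideal.Quotient.mk_surjective b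
  refine ⟨(Φ a, b), ?_⟩
  rw [ev_apply, Prod.mk.injEq]
  exact ⟨Ideal.Quotient.eq.2 (hJ (sub_mem_cond Φ a)), rfl⟩

theorem mem_ker_ev {J : Ideal R} {x : R × R} :
    x ∈ RingHom.ker (ev Φ J) ↔ Φ x.1 ∈ J ∧ x.2 ∈ J := by
  rw [RingHom.mem_ker, ev_apply, Prod.mk_eq_zero, Ideal.Quotient.eq_zero_iff_mem,
    Ideal.Quotient.eq_zero_iff_mem]

theorem sub_mem_of_mem_ker_ev {J : Ideal R} {x : R × R} (hx : x ∈ RingHom.ker (ev Φ J)) :
    Φ x.1 - x.2 ∈ J :=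
  J.sub_mem ((mem_ker_ev Φ).1 hx).1 ((mem_ker_ev Φ).1 hx).2

/-! ### radicality from a Frobenius structure (no hypothesis on `R`) -/

section Frob

variable {Φ}

/-- `τ^k a ≡ a ^ (Q^k)` modulo every ideal containing `cond Φ`, if `Φ (Φ (τ a)) = a ^ Q`. -/
theorem iterate_sub_pow_mem {τ : R → R} {Q : ℕ} (hτ : ∀ a, Φ (Φ (τ a)) = a ^ Q) {J : Ideal R}
    (hJ : cond Φ ≤ J) (a : R) (k : ℕ) : τ^[k] a - a ^ (Q ^ k) ∈ J := by
  induction k with
  | zero => simp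
  | succ k ih =>
    rw [Function.iterate_succ_apply']
    have h1 : (τ^[k] a) ^ Q - τ (τ^[k] a) ∈ J := by
      rw [← hτ]
      exact hJ (sub_mem_cond Φ _)
    have h2 : (τ^[k] a) ^ Q - (a ^ (Q ^ k)) ^ Q ∈ J :=
      J.mem_of_dvd (sub_dvd_pow_sub_pow _ _ Q) ih
    have e : τ (τ^[k] a) - a ^ (Q ^ (k + 1))
        = ((τ^[k] a) ^ Q - (a ^ (Q ^ k)) ^ Q) - ((τ^[k] a) ^ Q - τ (τ^[k] a)) := by
      rw [pow_succ Q k, pow_mul]; ring
    rw [e]
    exact J.sub_mem h2 h1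

/-- **radicality, Frobenius form** (`R` arbitrary): if `Φ² ∘ τ` is the `Q`-th power map, `Q ≥ 2`, and
`τ` has finite order, then every ideal containing `cond Φ` is radical. -/
theorem isRadical_of_frob {τ : R → R} {Q : ℕ} (hQ : 2 ≤ Q) (hτ : ∀ a, Φ (Φ (τ a)) = a ^ Q)
    {f : ℕ} (hf : 0 < f) (hτf : ∀ a, τ^[f] a = a) {J : Ideal R} (hJ : cond Φ ≤ J) :
    J.IsRadical := by
  rintro a ⟨n, hn⟩
  -- `k = f * n`
  have hit : ∀ j : ℕ, τ^[f * j] a = a := by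
    intro j
    induction j with
    | zero => simp
    | succ j ih => rw [Nat.mul_succ, Function.iterate_add_apply, hτf, ih]
  have hle : n ≤ Q ^ (f * n) := by
    calc n ≤ f * n := Nat.le_mul_of_pos_left n hf
      _ ≤ Q ^ (f * n) := (Nat.lt_pow_self (by omega)).le
  have h1 : a ^ (Q ^ (f * n)) ∈ J := J.pow_mem_of_pow_mem hn hle
  have h2 := iterate_sub_pow_mem hτ hJ a (f * n)
  rw [hit] at h2
  have := J.add_mem h2 h1
  simpa using this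

/-- the quotient is reduced. -/
theorem isReduced_quotient_of_frob {τ : R → R} {Q : ℕ} (hQ : 2 ≤ Q)
    (hτ : ∀ a, Φ (Φ (τ a)) = a ^ Q) {f : ℕ} (hf : 0 < f) (hτf : ∀ a, τ^[f] a = a) {J : Ideal R}
    (hJ : cond Φ ≤ J) : IsReduced (R ⧸ J) :=
  (Ideal.isRadical_iff_quotient_reduced J).1 (isRadical_of_frob hQ hτ hf hτf hJ)

/-- **Sandwich lemma, Frobenius form** (`R` arbitrary). -/
theorem exists_radical_ideal_of_frob {τ : R → R} {Q : ℕ} (hQ : 2 ≤ Q)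
    (hτ : ∀ a, Φ (Φ (τ a)) = a ^ Q) {f : ℕ} (hf : 0 < f) (hτf : ∀ a, τ^[f] a = a)
    (B : Subring (R × R)) (h1 : ∀ a, (a, Φ a) ∈ B) (h2 : ∀ b, (Φ b, b) ∈ B) :
    ∃ J : Ideal R, J.IsRadical ∧ cond Φ ≤ J ∧ Function.Surjective (ev Φ J) ∧
      (∀ x : R × R, x ∈ B ↔ (ev Φ J x).1 = (ev Φ J x).2) ∧
      (∀ x ∈ RingHom.ker (ev Φ J), x ∈ B) ∧
      ∀ (a : R) (k : ℕ), Ideal.Quotient.mk J (τ^[k] a) = Ideal.Quotient.mk J a ^ (Q ^ k) := by
  obtain ⟨J, hJ, hB⟩ := exists_ideal Φ B h1 h2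
  refine ⟨J, isRadical_of_frob hQ hτ hf hτf hJ, hJ, ev_surjective Φ hJ,
    fun x => (hB x).trans (ev_fst_eq_snd_iff Φ J x).symm,
    fun x hx => (hB x).2 (sub_mem_of_mem_ker_ev Φ hx), fun a k => ?_⟩
  rw [← map_pow, Ideal.Quotient.eq]
  exact iterate_sub_pow_mem hτ hJ a k

end Frob

/-! ### the Dedekind case -/

section Dedekind

variable {Φ}

theorem cond_ne_bot (hne : ∃ a, Φ (Φ a) ≠ a) : cond Φ ≠ ⊥ := by
  obtain ⟨a, ha⟩ := hne
  intro h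
  have := sub_mem_cond Φ a
  rw [h, Ideal.mem_bot, sub_eq_zero] at this
  exact ha this

variable [IsDedekindDomain R]

theorem not_cond_le_sq {q : ℕ} (hq : 2 ≤ q) (hΦ : ∀ a, ∃ y, Φ a = y ^ q) {P : Ideal R}
    (hP : P.IsPrime) (hP0 : P ≠ ⊥) : ¬ cond Φ ≤ P ^ 2 := by
  intro hle
  have hlt : P ^ 2 < P := Ideal.pow_lt_self P hP0 hP.ne_top 2 le_rfl
  obtain ⟨π, hπ, hπ2⟩ := SetLike.exists_of_lt hlt
  have h1 : Φ (Φ π) - π ∈ P ^ 2 := hle (sub_mem_cond Φ π)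
  obtain ⟨y, hy⟩ := hΦ (Φ π)
  have h2 : y ^ q ∈ P := by
    rw [← hy]
    have := P.add_mem (hlt.le h1) hπ
    simpa using this
  have h3 : y ∈ P := hP.mem_of_pow_mem q h2
  have h4 : y ^ q ∈ P ^ 2 := Ideal.pow_le_pow_right hq (Ideal.pow_mem_pow h3 q)
  apply hπ2
  have e : π = y ^ q - (Φ (Φ π) - π) := by rw [← hy]; ring
  rw [e]
  exact (P ^ 2).sub_mem h4 h1

theorem squarefree_of_cond_le {q : ℕ} (hq : 2 ≤ q) (hΦ : ∀ a, ∃ y, Φ a = y ^ q)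
    (hne : ∃ a, Φ (Φ a) ≠ a) {J : Ideal R} (hJ : cond Φ ≤ J) : Squarefree J := by
  intro I hI
  rw [Ideal.isUnit_iff]
  by_contra hI1
  obtain ⟨P, hPmax, hIP⟩ := Ideal.exists_le_maximal I hI1
  have hJI : J ≤ I * I := Ideal.le_of_dvd hI
  have hP0 : P ≠ ⊥ := by
    rintro rfl
    have h1 : I = ⊥ := le_bot_iff.1 hIP
    rw [h1, Ideal.mul_bot] at hJI
    exact cond_ne_bot hne (le_bot_iff.1 (hJ.trans hJI))
  refine not_cond_le_sq hq hΦ hPmax.isPrime hP0 ((hJ.trans hJI).trans ?_)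
  rw [pow_two]
  exact Ideal.mul_mono hIP hIP

/-- every ideal containing `cond Φ` is radical. -/
theorem isRadical_of_cond_le {q : ℕ} (hq : 2 ≤ q) (hΦ : ∀ a, ∃ y, Φ a = y ^ q)
    (hne : ∃ a, Φ (Φ a) ≠ a) {J : Ideal R} (hJ : cond Φ ≤ J) : J.IsRadical := by
  have hsq := (squarefree_of_cond_le hq hΦ hne hJ).isRadical
  rintro a ⟨n, hn⟩
  have h1 : J ∣ (Ideal.span {a}) ^ n := by
    rw [Ideal.dvd_iff_le, Ideal.span_singleton_pow, Ideal.span_singleton_le_iff_mem]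
    exact hn
  have h2 := hsq n _ h1
  rw [Ideal.dvd_iff_le, Ideal.span_singleton_le_iff_mem] at h2
  exact h2

/-- a nonzero radical ideal of a Dedekind domain is the intersection of a finite set of maximal
ideals. -/
theorem exists_finset_of_isRadical {J : Ideal R} (hJ0 : J ≠ ⊥) (hJ : J.IsRadical) :
    ∃ Sg : Finset (HeightOneSpectrum R), (∀ p : HeightOneSpectrum R, p ∈ Sg ↔ J ≤ p.asIdeal) ∧
      ∀ x : R, x ∈ J ↔ ∀ p ∈ Sg, x ∈ p.asIdeal := by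
  classical
  have hfin : {v : HeightOneSpectrum R | v.asIdeal ∣ J}.Finite := Ideal.finite_factors hJ0
  refine ⟨hfin.toFinset, fun p => ?_, fun x => ⟨fun hx p hp => ?_, fun hx => ?_⟩⟩
  · rw [Set.Finite.mem_toFinset, Set.mem_ofPred_eq, Ideal.dvd_iff_le]
  · rw [Set.Finite.mem_toFinset, Set.mem_ofPred_eq, Ideal.dvd_iff_le] at hp
    exact hp hx
  · rw [← hJ.radical, Ideal.radical_eq_sInf, Submodule.mem_sInf]
    rintro P ⟨hJP, hP⟩
    have hP0 : P ≠ ⊥ := by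
      rintro rfl
      exact hJ0 (le_bot_iff.1 hJP)
    refine hx ⟨P, hP, hP0⟩ ?_
    rw [Set.Finite.mem_toFinset, Set.mem_ofPred_eq, Ideal.dvd_iff_le]
    exact hJP

/-- **Sandwich lemma** (Dedekind form): every ring between `B₀` and `R × R` is obtained by glueing
along a finite set `Sg` of maximal ideals, all of them "fixed by `Φ²`". -/
theorem exists_finset {q : ℕ} (hq : 2 ≤ q) (hΦ : ∀ a, ∃ y, Φ a = y ^ q)
    (hne : ∃ a, Φ (Φ a) ≠ a) (B : Subring (R × R)) (h1 : ∀ a, (a, Φ a) ∈ B)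
    (h2 : ∀ b, (Φ b, b) ∈ B) :
    ∃ Sg : Finset (HeightOneSpectrum R),
      (∀ x : R × R, x ∈ B ↔ ∀ p ∈ Sg, Φ x.1 - x.2 ∈ p.asIdeal) ∧
      ∀ p ∈ Sg, ∀ a : R, Φ (Φ a) - a ∈ p.asIdeal := by
  obtain ⟨J, hJ, hB⟩ := exists_ideal Φ B h1 h2
  have hJ0 : J ≠ ⊥ := fun h => cond_ne_bot hne (le_bot_iff.1 (h ▸ hJ))
  obtain ⟨Sg, hSg, hmem⟩ := exists_finset_of_isRadical hJ0 (isRadical_of_cond_le hq hΦ hne hJ)
  exact ⟨Sg, fun x => (hB x).trans (hmem _), fun p hp a => (hSg p).1 hp (hJ (sub_mem_cond Φ a))⟩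

/-- **Sandwich lemma** (ideal form, with all the properties of `J`). -/
theorem exists_radical_ideal {q : ℕ} (hq : 2 ≤ q) (hΦ : ∀ a, ∃ y, Φ a = y ^ q)
    (hne : ∃ a, Φ (Φ a) ≠ a) (B : Subring (R × R)) (h1 : ∀ a, (a, Φ a) ∈ B)
    (h2 : ∀ b, (Φ b, b) ∈ B) :
    ∃ J : Ideal R, J ≠ ⊥ ∧ J.IsRadical ∧ cond Φ ≤ J ∧ Function.Surjective (ev Φ J) ∧
      (∀ x : R × R, x ∈ B ↔ (ev Φ J x).1 = (ev Φ J x).2) ∧
      ∀ x ∈ RingHom.ker (ev Φ J), x ∈ B := by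
  obtain ⟨J, hJ, hB⟩ := exists_ideal Φ B h1 h2
  have hJ0 : J ≠ ⊥ := fun h => cond_ne_bot hne (le_bot_iff.1 (h ▸ hJ))
  exact ⟨J, hJ0, isRadical_of_cond_le hq hΦ hne hJ, hJ, ev_surjective Φ hJ,
    fun x => (hB x).trans (ev_fst_eq_snd_iff Φ J x).symm,
    fun x hx => (hB x).2 (sub_mem_of_mem_ker_ev Φ hx)⟩

end Dedekind

end Fermat.Agent.SS.Sandwich
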